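import Fermat.Statements.S60
import Fermat.Prelude.Def_WeierstrassCurve_Mlc1RowStatement

/-!
# S60 wiring: semistable ⇒ modular, from the 3–5 trick inputs

`Fermat.Agent.S60.of_parts` derives the conclusion of S60 from hypotheses shaped like
S51 (3 or 5 irreducible), S52 (3–5 switch), S59 (modularity lifting at 3 and 5) and a
Langlands–Tunnell input at level not divisible by 9.
-/

set_option autoImplicit false

open WeierstrassCurve

namespace Fermat.Agent.S60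

/-- A modular model (of any positive level) gives modularity of the generic fibre. -/
theorem isModular_of_isModularModel (W : WeierstrassCurve ℤ) (h : W.IsModularModel) :
    (W.map (Int.castRingHom ℚ)).IsModular := by
  refine ⟨W, ⟨1, ?_⟩, h⟩
  exact one_smul _ _

/-- Exact-conductor-level modularity gives modularity. -/
theorem isModular_of_mlc1 (W : WeierstrassCurve ℤ)
    (h : Mlc1IsModularModelOfExactConductorLevel W) :
    (W.map (Int.castRingHom ℚ)).IsModular := by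
  obtain ⟨N, hN, -, -, hmod⟩ := h
  exact isModular_of_isModularModel W ⟨N, hN, hmod⟩

/-- If `W'` is modular of exact conductor level and `a_ℓ(W') ≡ a_ℓ(W) mod p` at all common good
primes `ℓ ≠ p`, then `W` is residually modular at `p` of a squarefree level. -/
theorem residuallyModular_of_congruent {p : ℕ} (hp : p.Prime) (W W' : WeierstrassCurve ℤ)
    (h : Mlc1IsModularModelOfExactConductorLevel W')
    (hcong : ∀ ℓ : ℕ, ℓ.Prime → W.IsGoodPrimeFor ℓ → W'.IsGoodPrimeFor ℓ → ℓ ≠ p →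
      (p : ℤ) ∣ (W'.apOfModel ℓ - W.apOfModel ℓ)) :
    ∃ N : ℕ, 0 < N ∧ Squarefree N ∧ W.IsResiduallyModularOfLevel p N := by
  obtain ⟨N, hN, hsq, hbad, f, hf, hfa⟩ := h
  obtain ⟨𝔪, h𝔪, hp𝔪⟩ := FLTPrelim.exists_maximalIdeal_natCast_prime_mem hp
  refine ⟨N, hN, hsq, f, 𝔪, hf, h𝔪, hp𝔪, ?_⟩
  intro ℓ hℓ hgood hℓN hℓp
  have hgood' : W'.IsGoodPrimeFor ℓ := fun hd => hℓN ((hbad ℓ hℓ).2 hd)
  refine ⟨((W'.apOfModel ℓ : ℤ) : integralClosure ℤ ℂ), ?_, ?_⟩
  · rw [hfa ℓ hℓ hgood' hℓN]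
    simp
  · obtain ⟨k, hk⟩ := hcong ℓ hℓ hgood hgood' hℓp
    have : ((W'.apOfModel ℓ : ℤ) : integralClosure ℤ ℂ) - ((W.apOfModel ℓ : ℤ) : integralClosure ℤ ℂ)
        = (p : integralClosure ℤ ℂ) * ((k : ℤ) : integralClosure ℤ ℂ) := by
      rw [← Int.cast_sub, hk]
      push_cast
      ring
    rw [this]
    exact Ideal.mul_mem_right _ _ hp𝔪

/-- **S60 from its inputs.**  `h51`, `h52`, `h59` have exactly the types of the frozen statements
S51, S52, S59; `hLT` is S50 with the level not divisible by `9` (the frozen S50 only gives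
"`9 ∣ M →` no inertia-fixed `3`-torsion", see NOTES/S60.md for the gap). -/
theorem of_parts
    (h51 : ∀ W : WeierstrassCurve ℤ, W.Δ ≠ 0 → W.IsSemistableModel →
      W.ModRepIsIrreducible 3 ∨ W.ModRepIsIrreducible 5)
    (h52 : ∀ W : WeierstrassCurve ℤ, W.Δ ≠ 0 → W.IsSemistableModel → W.ModRepIsIrreducible 5 →
      ∃ W' : WeierstrassCurve ℤ, W'.Δ ≠ 0 ∧ W'.IsSemistableModel ∧ W'.ModRepIsIrreducible 3 ∧
        ∀ ℓ : ℕ, ℓ.Prime → W.IsGoodPrimeFor ℓ → W'.IsGoodPrimeFor ℓ → ℓ ≠ 5 →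
          (5 : ℤ) ∣ (W'.apOfModel ℓ - W.apOfModel ℓ))
    (h59 : ∀ (p : ℕ), p = 3 ∨ p = 5 → ∀ (W : WeierstrassCurve ℤ), W.Δ ≠ 0 →
      W.IsSemistableModel → W.ModRepIsIrreducible p → ∀ (M₀ : ℕ) [NeZero M₀],
      W.IsResiduallyModularOfLevel p M₀ → ¬ p ^ 2 ∣ M₀ →
      (∀ q : ℕ, q.Prime → q ≠ p → ¬ q ^ 3 ∣ M₀) →
      Mlc1IsModularModelOfExactConductorLevel W)
    (hLT : ∀ W : WeierstrassCurve ℤ, W.Δ ≠ 0 → W.IsSemistableModel → W.ModRepIsIrreducible 3 →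
      ∃ M : ℕ, 0 < M ∧ W.IsResiduallyModularOfLevel 3 M ∧
        (∀ q : ℕ, q.Prime → q ≠ 3 → ¬ q ^ 3 ∣ M) ∧ ¬ 3 ^ 2 ∣ M)
    (W : WeierstrassCurve ℤ) (hΔ : W.Δ ≠ 0) (hW : W.IsSemistableModel) :
    (W.map (Int.castRingHom ℚ)).IsModular := by
  -- modularity when the mod-3 representation is irreducible
  have key3 : ∀ V : WeierstrassCurve ℤ, V.Δ ≠ 0 → V.IsSemistableModel →
      V.ModRepIsIrreducible 3 → Mlc1IsModularModelOfExactConductorLevel V := by
    intro V hVΔ hV h3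
    obtain ⟨M, hM, hres, hcube, h9⟩ := hLT V hVΔ hV h3
    haveI : NeZero M := ⟨hM.ne'⟩
    exact h59 3 (Or.inl rfl) V hVΔ hV h3 M hres h9 hcube
  rcases h51 W hΔ hW with h3 | h5
  · exact isModular_of_mlc1 W (key3 W hΔ hW h3)
  · obtain ⟨W', hΔ', hW', h3', hcong⟩ := h52 W hΔ hW h5
    have hmod' := key3 W' hΔ' hW' h3'
    obtain ⟨N, hN, hsq, hres⟩ :=
      residuallyModular_of_congruent (p := 5) (by norm_num) W W' hmod'
        (fun ℓ hℓ h1 h2 h3 => by exact_mod_cast hcong ℓ hℓ h1 h2 h3)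
    haveI : NeZero N := ⟨hN.ne'⟩
    have h25 : ¬ 5 ^ 2 ∣ N := by
      intro hd
      have h5u : IsUnit (5 : ℕ) := hsq 5 (by simpa [pow_two] using hd)
      simp at h5u
    have hcube : ∀ q : ℕ, q.Prime → q ≠ 5 → ¬ q ^ 3 ∣ N := by
      intro q hq _ hd
      have hqq : q * q ∣ N := Dvd.dvd.trans ⟨q, by ring⟩ hd
      have hqu : IsUnit q := hsq q hqq
      exact hq.one_lt.ne' (Nat.isUnit_iff.mp hqu)
    exact isModular_of_mlc1 W (h59 5 (Or.inr rfl) W hΔ hW h5 N hres h25 hcube)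

end Fermat.Agent.S60
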